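/-
T3 (P), part 2 (helper1): weak approximation in a function field: for a place `P` and a finite
set `S` of places not containing `P` there is a function with a simple zero at `P` and neither
zero nor pole on `S`.
-/
import Mathlib
import Fermat.Agent.Lib.Curve.Global

set_option autoImplicit false
set_option linter.unusedSectionVars false
set_option linter.style.haveILetI false

namespace Fermat.Agent.T3

open AlgebraicCurve IsDedekindDomain WithZero Fermat.Agent.Curve Fermat.Agent.Curve.PlaceAux

/-- Chinese remainder theorem in a Dedekind domain: an element with valuation `exp (-1)` at `p`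
and valuation `1` at finitely many other primes -/
theorem t3p_dedekind_approx {R : Type*} [CommRing R] [IsDedekindDomain R]
    (p : HeightOneSpectrum R) (s : Finset (HeightOneSpectrum R)) (hp : p ∉ s) :
    ∃ r : R, p.intValuation r = exp (-1 : ℤ) ∧ ∀ q ∈ s, q.intValuation r = 1 := by
  classical
  obtain ⟨π, hπ⟩ := p.intValuation_exists_uniformizer
  obtain ⟨y, hy⟩ := IsDedekindDomain.exists_forall_sub_mem_ideal (s := insert p s)
    (fun i : HeightOneSpectrum R => i.asIdeal) (fun i => if i = p then 2 else 1)
    (fun i _ => i.prime)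
    (fun i _ j _ hij h => hij (HeightOneSpectrum.ext h))
    (fun i => if (i : HeightOneSpectrum R) = p then π else 1)
  refine ⟨y, ?_, fun q hq => ?_⟩
  · have h1 := hy p (Finset.mem_insert_self p s)
    simp only [if_true] at h1
    rw [← hπ]
    apply Valuation.map_eq_of_sub_lt
    have h2 : p.intValuation (y - π) ≤ exp (-((2 : ℕ) : ℤ)) :=
      (p.intValuation_le_pow_iff_mem _ 2).mpr h1
    rw [hπ]
    refine lt_of_le_of_lt h2 ?_
    rw [exp_lt_exp]
    norm_num
  · have hqp : q ≠ p := fun h => hp (h ▸ hq)
    have h1 := hy q (Finset.mem_insert_of_mem hq)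
    simp only [if_neg hqp, pow_one] at h1
    have h2 : q.intValuation (y - 1) < 1 := (q.intValuation_lt_one_iff_mem _).mpr h1
    have h3 : q.intValuation y = q.intValuation 1 := by
      apply Valuation.map_eq_of_sub_lt
      rwa [map_one]
    rwa [map_one] at h3

variable {K F : Type*} [Field K] [Field F] [Algebra K F] [CharZero K] [IsAlgClosed K]

omit [CharZero K] [IsAlgClosed K] in
/-- at most one constant `c` makes `x - c` vanish at a given place -/
theorem t3p_zero_unique (Q : Place K F) (x : F) {c c' : K}
    (hc : 0 < Q.ord (x - algebraMap K F c)) (hc' : 0 < Q.ord (x - algebraMap K F c')) :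
    c = c' := by
  by_contra hne
  have h1 : OrdGE Q (x - algebraMap K F c) 1 := (ordGE_iff Q).mpr (Or.inr (by omega))
  have h2 : OrdGE Q (x - algebraMap K F c') 1 := (ordGE_iff Q).mpr (Or.inr (by omega))
  have h3 := OrdGE.sub Q h2 h1
  have h4 : x - algebraMap K F c' - (x - algebraMap K F c) = algebraMap K F (c - c') := by
    rw [map_sub]; ring
  rw [h4, ordGE_iff] at h3
  rcases h3 with h3 | h3
  · have : c - c' = 0 := (map_eq_zero (algebraMap K F)).mp h3
    exact hne (sub_eq_zero.mp this)
  · rw [ord_algebraMap] at h3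
    omega

/-- a coordinate which is regular at finitely many given places -/
theorem t3p_exists_regular_gen {x : F} (hx : IsFunctionFieldGen K F x)
    (T : Finset (Place K F)) :
    ∃ x' : F, IsFunctionFieldGen K F x' ∧ ∀ Q ∈ T, x' ∈ Q.toValuationSubring := by
  classical
  -- the finite set of bad constants
  have hbad : {c : K | ∃ Q ∈ T, 0 < Q.ord (x - algebraMap K F c)}.Finite := by
    have : {c : K | ∃ Q ∈ T, 0 < Q.ord (x - algebraMap K F c)}
        = ⋃ Q ∈ T, {c : K | 0 < Q.ord (x - algebraMap K F c)} := by
      ext c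
      simp
    rw [this]
    refine Set.Finite.biUnion T.finite_toSet fun Q _ => ?_
    apply Set.Subsingleton.finite
    intro c hc c' hc'
    exact t3p_zero_unique Q x hc hc'
  obtain ⟨c, hc⟩ := hbad.exists_notMem (s := {c : K | ∃ Q ∈ T, 0 < Q.ord (x - algebraMap K F c)})
  have hc' : ∀ Q ∈ T, Q.ord (x - algebraMap K F c) ≤ 0 := by
    intro Q hQ
    by_contra h
    exact hc ⟨Q, hQ, by omega⟩
  have hnr : x - algebraMap K F c ∉ Set.range (algebraMap K F) := by
    rintro ⟨d, hd⟩
    apply hx.transcendental
    have : x = algebraMap K F (d + c) := by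
      rw [map_add, hd]; ring
    rw [this]
    exact isAlgebraic_algebraMap _
  have hgen := (isFunctionFieldGen_of_notMem_range hx hnr).inv
  refine ⟨_, hgen, fun Q hQ => ?_⟩
  apply mem_of_ord_nonneg
  rw [Q.ord_inv]
  have := hc' Q hQ
  omega

/-- **weak approximation**: a function with a simple zero at `P` and neither zero nor pole on the
finite set `S` -/
theorem t3p_weak_approx {x : F} (hx : IsFunctionFieldGen K F x) (P : Place K F)
    (S : Finset (Place K F)) (hP : P ∉ S) :
    ∃ t : F, t ≠ 0 ∧ P.ord t = 1 ∧ ∀ Q ∈ S, Q.ord t = 0 := by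
  classical
  obtain ⟨x', hx', hreg⟩ := t3p_exists_regular_gen hx (insert P S)
  haveI : Fact (IsFunctionFieldGen K F x') := ⟨hx'⟩
  haveI : IsDedekindDomain (Bx K x') := Bx.isDedekindDomain
  haveI : IsFractionRing (Bx K x') F := Bx.isFractionRing
  -- the centres
  have hle : ∀ Q ∈ insert P S, ∀ r : Bx K x', algebraMap (Bx K x') F r ∈ Q.toValuationSubring :=
    fun Q hQ => Bx_le Q (hreg Q hQ)
  let cen : Place K F → HeightOneSpectrum (Bx K x') := fun Q =>
    if h : Q ∈ insert P S then centre Q (hle Q h) else centre P (hle P (Finset.mem_insert_self _ _))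
  have hcen : ∀ Q ∈ insert P S, Q = Place.ofHeightOneSpectrum (K := K) (cen Q) := by
    intro Q hQ
    have : cen Q = centre Q (hle Q hQ) := dif_pos hQ
    rw [this]
    exact eq_ofHeightOneSpectrum_centre Q (hle Q hQ)
  have hPmem : P ∈ insert P S := Finset.mem_insert_self _ _
  have hnot : cen P ∉ S.image cen := by
    intro h
    obtain ⟨Q, hQ, hQP⟩ := Finset.mem_image.mp h
    apply hP
    have h1 := hcen Q (Finset.mem_insert_of_mem hQ)
    have h2 := hcen P hPmem
    rw [hQP] at h1
    rw [h2, ← h1]
    exact hQ
  obtain ⟨r, hr1, hr2⟩ := t3p_dedekind_approx (cen P) (S.image cen) hnot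
  have hr0 : algebraMap (Bx K x') F r ≠ 0 := by
    intro h0
    have : r = 0 := (IsFractionRing.to_map_eq_zero_iff (K := F)).mp h0
    rw [this, map_zero] at hr1
    exact (exp_ne_zero).symm hr1
  refine ⟨algebraMap (Bx K x') F r, hr0, ?_, fun Q hQ => ?_⟩
  · rw [hcen P hPmem, ofHeightOneSpectrum_ord, HeightOneSpectrum.valuation_of_algebraMap, hr1,
      log_exp]
    norm_num
  · rw [hcen Q (Finset.mem_insert_of_mem hQ), ofHeightOneSpectrum_ord,
      HeightOneSpectrum.valuation_of_algebraMap,
      hr2 (cen Q) (Finset.mem_image_of_mem cen hQ), log_one, neg_zero]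

end Fermat.Agent.T3
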