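/-
T3 (P), part 1 (helper1): functoriality of the restriction of places and of ramification indices
along compositions of homomorphisms of function fields; compatibility of pull-back of divisors
with semilinear automorphisms; the pull-back on `Pic⁰` along a homomorphism.
-/
import Mathlib
import Fermat.Prelude.Def_AlgebraicCurve_Correspondence

set_option autoImplicit false
set_option linter.unusedSectionVars false
set_option linter.style.haveILetI false

namespace Fermat.Agent.T3

open AlgebraicCurve
open scoped Pointwise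

variable {K F F' F'' : Type*} [Field K] [Field F] [Field F'] [Field F'']
  [Algebra K F] [Algebra K F'] [Algebra K F'']

/-- membership in the valuation ring of the restricted place -/
theorem t3p_mem_restrictAlong (φ : F →ₐ[K] F') (hφ : φ.toRingHom.IsIntegral) (w : Place K F')
    (f : F) :
    f ∈ (w.restrictAlong φ hφ).toValuationSubring ↔ φ f ∈ w.toValuationSubring :=
  Iff.rfl

/-- restriction of places is functorial -/
theorem t3p_restrictAlong_comp (φ : F →ₐ[K] F') (ψ : F' →ₐ[K] F'')
    (hφ : φ.toRingHom.IsIntegral) (hψ : ψ.toRingHom.IsIntegral)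
    (hχ : (ψ.comp φ).toRingHom.IsIntegral) (W : Place K F'') :
    W.restrictAlong (ψ.comp φ) hχ = (W.restrictAlong ψ hψ).restrictAlong φ hφ := by
  apply Place.ext
  ext f
  rw [t3p_mem_restrictAlong, t3p_mem_restrictAlong, t3p_mem_restrictAlong]
  rfl

/-- restriction along equal composites -/
theorem t3p_restrictAlong_square {G : Type*} [Field G] [Algebra K G]
    (φ : F →ₐ[K] F') (ψ : F' →ₐ[K] F'') (φ' : F →ₐ[K] G) (ψ' : G →ₐ[K] F'')
    (h : ψ.comp φ = ψ'.comp φ')
    (hφ : φ.toRingHom.IsIntegral) (hψ : ψ.toRingHom.IsIntegral)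
    (hφ' : φ'.toRingHom.IsIntegral) (hψ' : ψ'.toRingHom.IsIntegral) (W : Place K F'') :
    (W.restrictAlong ψ hψ).restrictAlong φ hφ = (W.restrictAlong ψ' hψ').restrictAlong φ' hφ' := by
  apply Place.ext
  ext f
  rw [t3p_mem_restrictAlong, t3p_mem_restrictAlong, t3p_mem_restrictAlong, t3p_mem_restrictAlong]
  have : ψ (φ f) = ψ' (φ' f) := by
    have := congrArg (fun χ : F →ₐ[K] F'' => χ f) h
    simpa using this
  rw [this]

/-- every place has a uniformiser -/
theorem t3p_exists_ord_eq_one (v : Place K F) : ∃ f : F, f ≠ 0 ∧ v.ord f = 1 := by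
  obtain ⟨π, hπ⟩ := IsDiscreteValuationRing.exists_irreducible v.toValuationSubring
  refine ⟨(π : F), ?_, v.ord_coe_irreducible hπ⟩
  intro h
  apply hπ.ne_zero
  exact Subtype.ext h

/-- the ramification index is the order of the image of a uniformiser -/
theorem t3p_ramificationIndexAlong_eq (φ : F →ₐ[K] F') (hφ : φ.toRingHom.IsIntegral)
    (w : Place K F') {f : F} (hf : (w.restrictAlong φ hφ).ord f = 1) :
    (w.ramificationIndexAlong φ : ℤ) = w.ord (φ f) := by
  rw [Place.ord_restrictAlong φ hφ, hf, mul_one]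

/-- ramification indices are multiplicative in towers -/
theorem t3p_ramificationIndexAlong_comp (φ : F →ₐ[K] F') (ψ : F' →ₐ[K] F'')
    (hφ : φ.toRingHom.IsIntegral) (hψ : ψ.toRingHom.IsIntegral)
    (hχ : (ψ.comp φ).toRingHom.IsIntegral) (W : Place K F'') :
    W.ramificationIndexAlong (ψ.comp φ)
      = W.ramificationIndexAlong ψ * (W.restrictAlong ψ hψ).ramificationIndexAlong φ := by
  obtain ⟨f, -, hf⟩ := t3p_exists_ord_eq_one ((W.restrictAlong ψ hψ).restrictAlong φ hφ)
  have h1 : (W.ramificationIndexAlong (ψ.comp φ) : ℤ) = W.ord ((ψ.comp φ) f) := by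
    apply t3p_ramificationIndexAlong_eq (ψ.comp φ) hχ W
    rw [t3p_restrictAlong_comp φ ψ hφ hψ hχ]
    exact hf
  have h2 := Place.ord_restrictAlong ψ hψ W (φ f)
  have h3 := t3p_ramificationIndexAlong_eq φ hφ (W.restrictAlong ψ hψ) hf
  have h4 : (ψ.comp φ) f = ψ (φ f) := rfl
  rw [h4, h2, ← h3] at h1
  exact_mod_cast h1

section Pullback

variable [HasPrincipalDivisors K F'] [HasPrincipalDivisors K F'']

/-- pull-back of divisors is functorial -/
theorem t3p_pullbackAlong_comp (φ : F →ₐ[K] F') (ψ : F' →ₐ[K] F'')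
    (hφ : φ.toRingHom.IsIntegral) (hψ : ψ.toRingHom.IsIntegral)
    (hχ : (ψ.comp φ).toRingHom.IsIntegral) (D : Divisor K F) :
    Divisor.pullbackAlong (ψ.comp φ) hχ D
      = Divisor.pullbackAlong ψ hψ (Divisor.pullbackAlong φ hφ D) := by
  ext W
  rw [Divisor.pullbackAlong_apply, Divisor.pullbackAlong_apply, Divisor.pullbackAlong_apply,
    t3p_restrictAlong_comp φ ψ hφ hψ hχ, t3p_ramificationIndexAlong_comp φ ψ hφ hψ hχ]
  push_cast
  ring

/-- the pull-back of the divisor of `f` is the divisor of `φ f` -/
theorem t3p_pullbackAlong_apply_eq_ord (φ : F →ₐ[K] F') (hφ : φ.toRingHom.IsIntegral) {f : F}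
    {D : Divisor K F} (hD : ∀ v : Place K F, D v = v.ord f) (w : Place K F') :
    Divisor.pullbackAlong φ hφ D w = w.ord (φ f) := by
  rw [Divisor.pullbackAlong_apply, hD, ← Place.ord_restrictAlong]

end Pullback

section Galois

variable (φ : F →ₐ[K] F') (hφ : φ.toRingHom.IsIntegral)
  {g : SemilinearAut K F} {g' : SemilinearAut K F'}

/-- restriction of places commutes with intertwined semilinear automorphisms -/
theorem t3p_restrictAlong_smul (h : SemilinearAut.IntertwinesAlong φ.toRingHom g g')
    (w : Place K F') :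
    (g' • w).restrictAlong φ hφ = g • (w.restrictAlong φ hφ) := by
  apply Place.ext
  ext f
  rw [t3p_mem_restrictAlong, SemilinearAut.smul_toValuationSubring,
    SemilinearAut.smul_toValuationSubring,
    ValuationSubring.mem_pointwise_smul_iff_inv_smul_mem,
    ValuationSubring.mem_pointwise_smul_iff_inv_smul_mem, t3p_mem_restrictAlong]
  have := h.inv f
  have h2 : g'⁻¹ • φ f = φ (g⁻¹ • f) := this
  rw [h2]

include hφ in
/-- the ramification index is invariant under intertwined semilinear automorphisms -/
theorem t3p_ramificationIndexAlong_smul (h : SemilinearAut.IntertwinesAlong φ.toRingHom g g')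
    (w : Place K F') :
    (g' • w).ramificationIndexAlong φ = w.ramificationIndexAlong φ := by
  obtain ⟨f, -, hf⟩ := t3p_exists_ord_eq_one (w.restrictAlong φ hφ)
  have h1 : ((g' • w).restrictAlong φ hφ).ord (g • f) = 1 := by
    rw [t3p_restrictAlong_smul φ hφ h, SemilinearAut.ord_smul, hf]
  have h2 := t3p_ramificationIndexAlong_eq φ hφ (g' • w) h1
  have h3 := t3p_ramificationIndexAlong_eq φ hφ w hf
  have h4 : φ (g • f) = g' • φ f := (h f).symm
  rw [h4, SemilinearAut.ord_smul, ← h3] at h2
  exact_mod_cast h2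

variable [HasPrincipalDivisors K F']

/-- pull-back of divisors commutes with intertwined semilinear automorphisms -/
theorem t3p_pullbackAlong_smul (h : SemilinearAut.IntertwinesAlong φ.toRingHom g g')
    (D : Divisor K F) :
    Divisor.pullbackAlong φ hφ (g • D) = g' • Divisor.pullbackAlong φ hφ D := by
  ext w
  rw [Divisor.pullbackAlong_apply, SemilinearAut.divisor_smul_apply,
    SemilinearAut.divisor_smul_apply, Divisor.pullbackAlong_apply,
    t3p_restrictAlong_smul φ hφ h.inv, t3p_ramificationIndexAlong_smul φ hφ h.inv]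

end Galois

section Pic0

variable [HasPrincipalDivisors K F'] (φ : F →ₐ[K] F') (hφ : φ.toRingHom.IsIntegral)
  (hFI : FundamentalIdentityAlong K φ hφ)

/-- the pull-back of divisor classes of degree zero along a homomorphism of function fields -/
noncomputable def t3pPullAlong : Pic0 K F →+ Pic0 K F' :=
  letI := algebraAlong φ
  haveI := isScalarTower_along φ
  haveI := isIntegral_along φ hφ
  haveI : FundamentalIdentity K F F' := hFI
  Pic0.pullbackHom F'

theorem t3pPullAlong_mk (D : Divisor.degZero (K := K) (F := F)) :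
    t3pPullAlong φ hφ hFI (Pic0.mk D)
      = Pic0.mk ⟨Divisor.pullbackAlong φ hφ (D : Divisor K F),
          Divisor.pullbackAlong_mem_degZero φ hφ hFI D.2⟩ :=
  rfl

/-- the pull-back on `Pic⁰` commutes with intertwined semilinear automorphisms -/
theorem t3pPullAlong_smul {g : SemilinearAut K F} {g' : SemilinearAut K F'}
    (h : SemilinearAut.IntertwinesAlong φ.toRingHom g g') (x : Pic0 K F) :
    t3pPullAlong φ hφ hFI (g • x) = g' • t3pPullAlong φ hφ hFI x := by
  obtain ⟨D, rfl⟩ := Pic0.mk_surjective x
  rw [SemilinearAut.pic0_smul_mk, t3pPullAlong_mk, t3pPullAlong_mk, SemilinearAut.pic0_smul_mk]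
  apply congrArg Pic0.mk
  apply Subtype.ext
  show Divisor.pullbackAlong φ hφ (g • (D : Divisor K F))
    = g' • Divisor.pullbackAlong φ hφ (D : Divisor K F)
  exact t3p_pullbackAlong_smul φ hφ h _

end Pic0

end Fermat.Agent.T3
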