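/-
T3 (P), part 3 (helper1): an additive map on divisors which vanishes on principal divisors and
is "local" (the image of a point is supported on a set attached to the point, and only finitely
many points have sets meeting a given one) vanishes.  Application: pull-back of divisors commutes
with correspondences (base change), as soon as the norms are compatible.
-/
import Mathlib
import Fermat.Agent.Lib.T3.Pull.Functor
import Fermat.Agent.Lib.T3.Pull.Approx

set_option autoImplicit false
set_option linter.unusedSectionVars false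
set_option linter.style.haveILetI false

namespace Fermat.Agent.T3

open AlgebraicCurve Fermat.Agent.Curve

section Local

variable {K F F' : Type*} [Field K] [Field F] [Field F'] [Algebra K F] [Algebra K F']
  [CharZero K] [IsAlgClosed K]

/-- **local additive maps killing principal divisors vanish** -/
theorem t3p_eq_zero_of_local {x : F} (hx : IsFunctionFieldGen K F x)
    (L : Divisor K F →+ Divisor K F') (Z : Place K F → Place K F' → Prop)
    (hsupp : ∀ (P : Place K F) (n : ℤ) (w : Place K F'), L (Finsupp.single P n) w ≠ 0 → Z P w)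
    (hfin : ∀ P : Place K F, ∃ B : Finset (Place K F),
      ∀ (Q : Place K F) (w : Place K F'), Z Q w → Z P w → Q ∈ B)
    (hprin : ∀ D : Divisor K F, D.IsPrincipal → L D = 0) : L = 0 := by
  classical
  have hP : ∀ P : Place K F, L (Finsupp.single P 1) = 0 := by
    intro P
    obtain ⟨B, hB⟩ := hfin P
    obtain ⟨t, ht0, htP, htS⟩ := t3p_weak_approx hx P (B.erase P) (Finset.notMem_erase P B)
    haveI := hasPrincipalDivisors hx
    obtain ⟨D, hD, -⟩ := HasPrincipalDivisors.exists_divisor (K := K) t ht0
    have hLD : L D = 0 := hprin D ⟨t, ht0, hD⟩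
    set D' : Divisor K F := D - Finsupp.single P 1 with hD'
    have hDsum : D = Finsupp.single P 1 + D' := by rw [hD']; abel
    ext w
    rw [Finsupp.zero_apply]
    by_contra hne
    have hZ := hsupp P 1 w hne
    have hLD' : L D' w = 0 := by
      have h1 : D' = D'.sum Finsupp.single := (Finsupp.sum_single D').symm
      rw [h1, Finsupp.sum, map_sum, Finsupp.finsetSum_apply]
      refine Finset.sum_eq_zero fun Q hQ => ?_
      by_contra hne'
      have hQB := hB Q w (hsupp Q (D' Q) w hne') hZ
      have hQ0 : D' Q ≠ 0 := Finsupp.mem_support_iff.mp hQ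
      apply hQ0
      rw [hD', Finsupp.sub_apply, hD Q]
      by_cases hQP : Q = P
      · rw [hQP, htP, Finsupp.single_eq_same, sub_self]
      · rw [htS Q (Finset.mem_erase.mpr ⟨hQP, hQB⟩), Finsupp.single_eq_of_ne hQP, sub_zero]
    have h2 : L D w = 0 := by rw [hLD, Finsupp.zero_apply]
    rw [hDsum, map_add, Finsupp.add_apply, hLD', add_zero] at h2
    exact hne h2
  apply Finsupp.addHom_ext
  intro P n
  have h1 : (Finsupp.single P n : Divisor K F) = n • Finsupp.single P (1 : ℤ) := by
    rw [Finsupp.smul_single, smul_eq_mul, mul_one]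
  rw [h1, map_zsmul, hP, smul_zero, AddMonoidHom.zero_apply]

end Local

section Supports

variable {K F F' : Type*} [Field K] [Field F] [Field F'] [Algebra K F] [Algebra K F']

/-- a place in the support of a push-forward lies under a place of the support -/
theorem t3p_exists_of_pushforwardAlong_ne_zero (φ : F →ₐ[K] F') (hφ : φ.toRingHom.IsIntegral)
    (E : Divisor K F') (v : Place K F) (h : Divisor.pushforwardAlong φ hφ E v ≠ 0) :
    ∃ W : Place K F', E W ≠ 0 ∧ W.restrictAlong φ hφ = v := by
  classical
  letI := algebraAlong φ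
  haveI := isScalarTower_along φ
  haveI := isIntegral_along φ hφ
  have h' : Divisor.pushforward F E v ≠ 0 := h
  rw [Divisor.pushforward_apply] at h'
  obtain ⟨W, hW, hne⟩ := Finset.exists_ne_zero_of_sum_ne_zero h'
  refine ⟨W, Finsupp.mem_support_iff.mp hW, ?_⟩
  by_contra hr
  have hr' : ¬ W.restrict F = v := hr
  rw [if_neg hr'] at hne
  exact hne rfl

/-- a place in the support of a pull-back lies over a place of the support -/
theorem t3p_of_pullbackAlong_ne_zero [HasPrincipalDivisors K F'] (φ : F →ₐ[K] F')
    (hφ : φ.toRingHom.IsIntegral) (D : Divisor K F) (w : Place K F')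
    (h : Divisor.pullbackAlong φ hφ D w ≠ 0) : D (w.restrictAlong φ hφ) ≠ 0 := by
  intro h0
  apply h
  rw [Divisor.pullbackAlong_apply, h0, mul_zero]

/-- the norm along a homomorphism -/
noncomputable def t3pNormAlong (φ : F →ₐ[K] F') (y : F') : F :=
  letI := algebraAlong φ
  Algebra.norm F y

/-- the norm formula along `φ`, applied -/
theorem t3p_pushforwardAlong_eq_ord_norm (φ : F →ₐ[K] F') (hφ : φ.toRingHom.IsIntegral)
    (hfin : FiniteAlong K φ) (hN : NormFormulaAlong K φ hfin) {f : F'} (hf : f ≠ 0)
    {E : Divisor K F'} (hE : ∀ w : Place K F', E w = w.ord f) (v : Place K F) :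
    Divisor.pushforwardAlong φ hφ E v = v.ord (t3pNormAlong φ f) := by
  letI := algebraAlong φ
  haveI := isScalarTower_along φ
  haveI := isIntegral_along φ hφ
  haveI : Module.Finite F F' := hfin
  exact hN f hf E hE v

end Supports

section BaseChange

variable {K A B A' B' : Type*} [Field K] [Field A] [Field B] [Field A'] [Field B']
  [Algebra K A] [Algebra K B] [Algebra K A'] [Algebra K B'] [CharZero K] [IsAlgClosed K]
  [HasPrincipalDivisors K B] [HasPrincipalDivisors K A'] [HasPrincipalDivisors K B']

/-- **pull-back commutes with correspondences** (`π^* ∘ α_* β^* = α'_* β'^* ∘ π^*`) for a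
commutative diagram of function fields with compatible norms -/
theorem t3p_pull_correspondence {a : A} (ha : IsFunctionFieldGen K A a)
    (α β : A →ₐ[K] B) (α' β' : A' →ₐ[K] B') (π : A →ₐ[K] A') (π' : B →ₐ[K] B')
    (hsqα : π'.comp α = α'.comp π) (hsqβ : π'.comp β = β'.comp π)
    (hα : α.toRingHom.IsIntegral) (hβ : β.toRingHom.IsIntegral)
    (hα' : α'.toRingHom.IsIntegral) (hβ' : β'.toRingHom.IsIntegral)
    (hπ : π.toRingHom.IsIntegral) (hπ' : π'.toRingHom.IsIntegral)
    (hfinα : FiniteAlong K α) (hNα : NormFormulaAlong K α hfinα)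
    (hfinα' : FiniteAlong K α') (hNα' : NormFormulaAlong K α' hfinα')
    (hnorm : ∀ f : A, f ≠ 0 → π (t3pNormAlong α (β f)) = t3pNormAlong α' (β' (π f)))
    (D : Divisor K A) :
    Divisor.pullbackAlong π hπ (Divisor.correspondence β α hβ hα D)
      = Divisor.correspondence β' α' hβ' hα' (Divisor.pullbackAlong π hπ D) := by
  classical
  set L : Divisor K A →+ Divisor K A' :=
    (Divisor.pullbackAlong π hπ).comp (Divisor.correspondence β α hβ hα)
      - (Divisor.correspondence β' α' hβ' hα').comp (Divisor.pullbackAlong π hπ) with hL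
  have hLapp : ∀ D : Divisor K A, L D
      = Divisor.pullbackAlong π hπ (Divisor.correspondence β α hβ hα D)
        - Divisor.correspondence β' α' hβ' hα' (Divisor.pullbackAlong π hπ D) := fun D => rfl
  suffices h : L = 0 by
    have := hLapp D
    rw [h, AddMonoidHom.zero_apply] at this
    exact (sub_eq_zero.mp this.symm)
  refine t3p_eq_zero_of_local ha L
    (fun P w => ∃ W : Place K B, W.restrictAlong β hβ = P ∧
      W.restrictAlong α hα = w.restrictAlong π hπ) ?_ ?_ ?_
  · -- supports
    intro P n w hne
    rw [hLapp, Finsupp.sub_apply] at hne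
    have hor : Divisor.pullbackAlong π hπ
          (Divisor.correspondence β α hβ hα (Finsupp.single P n)) w ≠ 0 ∨
        Divisor.correspondence β' α' hβ' hα'
          (Divisor.pullbackAlong π hπ (Finsupp.single P n)) w ≠ 0 := by
      by_contra hcon
      push Not at hcon
      rw [hcon.1, hcon.2, sub_zero] at hne
      exact hne rfl
    rcases hor with h1 | h2
    · have h1' := t3p_of_pullbackAlong_ne_zero π hπ _ w h1
      rw [Divisor.correspondence_apply] at h1'
      obtain ⟨W, hW, hWv⟩ := t3p_exists_of_pushforwardAlong_ne_zero α hα _ _ h1'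
      have hW' := t3p_of_pullbackAlong_ne_zero β hβ _ W hW
      refine ⟨W, ?_, hWv⟩
      by_contra hne'
      exact hW' (Finsupp.single_eq_of_ne hne')
    · rw [Divisor.correspondence_apply] at h2
      obtain ⟨W', hW', hW'w⟩ := t3p_exists_of_pushforwardAlong_ne_zero α' hα' _ _ h2
      have h3 := t3p_of_pullbackAlong_ne_zero β' hβ' _ W' hW'
      have h4 := t3p_of_pullbackAlong_ne_zero π hπ _ _ h3
      have h5 : (W'.restrictAlong β' hβ').restrictAlong π hπ = P := by
        by_contra hne'
        exact h4 (Finsupp.single_eq_of_ne hne')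
      refine ⟨W'.restrictAlong π' hπ', ?_, ?_⟩
      · rw [t3p_restrictAlong_square β π' π β' hsqβ hβ hπ' hπ hβ', h5]
      · rw [t3p_restrictAlong_square α π' π α' hsqα hα hπ' hπ hα', hW'w]
  · -- finiteness
    intro P
    refine ⟨((Place.fiberAlong β hβ P).biUnion
      (fun W₂ => Place.fiberAlong α hα (W₂.restrictAlong α hα))).image
        (fun W₁ => W₁.restrictAlong β hβ), ?_⟩
    rintro Q w ⟨W₁, hW₁Q, hW₁w⟩ ⟨W₂, hW₂P, hW₂w⟩
    refine Finset.mem_image.mpr ⟨W₁, Finset.mem_biUnion.mpr ⟨W₂, ?_, ?_⟩, hW₁Q⟩
    · exact Place.mem_fiberAlong.mpr hW₂P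
    · exact Place.mem_fiberAlong.mpr (hW₁w.trans hW₂w.symm)
  · -- principal divisors
    rintro D ⟨f, hf, hD⟩
    rw [hLapp, sub_eq_zero]
    have hβf : β f ≠ 0 := by
      rw [ne_eq, map_eq_zero]; exact hf
    have hπf : π f ≠ 0 := by
      rw [ne_eq, map_eq_zero]; exact hf
    have hβπf : β' (π f) ≠ 0 := by
      rw [ne_eq, map_eq_zero]; exact hπf
    ext w
    have h1 : ∀ v : Place K A, Divisor.correspondence β α hβ hα D v
        = v.ord (t3pNormAlong α (β f)) := by
      intro v
      rw [Divisor.correspondence_apply]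
      exact t3p_pushforwardAlong_eq_ord_norm α hα hfinα hNα hβf
        (fun W => t3p_pullbackAlong_apply_eq_ord β hβ hD W) v
    rw [t3p_pullbackAlong_apply_eq_ord π hπ h1 w, Divisor.correspondence_apply,
      t3p_pushforwardAlong_eq_ord_norm α' hα' hfinα' hNα' hβπf
        (fun W => t3p_pullbackAlong_apply_eq_ord β' hβ'
          (fun v => t3p_pullbackAlong_apply_eq_ord π hπ hD v) W) w,
      hnorm f hf]

end BaseChange

end Fermat.Agent.T3
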