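/-
T3 (P), part 4 (helper1): the pull-back `J₀(N) → J₀(N e)` of divisor classes along the inclusion
`F_N ⊂ F_{N e}` of modular function fields over `ℚ̄`: definition, Galois equivariance,
commutation with `T_ℓ` (`ℓ ∤ N e` prime; input: the norm description (K1) of `T_ℓ` on functions at
both levels), injectivity on torsion (via the level lowering of roots K2 of T1-K).
-/
import Mathlib
import Fermat.Prelude.Def_ModularCurve_HeckeModule
import Fermat.Agent.Lib.T3.Pull.Local
import Fermat.Agent.Lib.T3.Hecke.Modular
import Fermat.Agent.Lib.T1.Kron.Hecke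
import Fermat.Agent.Lib.T1.Kron.Pull
import Fermat.Agent.Lib.T1.Dict.CuspDvd

set_option autoImplicit false
set_option linter.unusedSectionVars false
set_option linter.style.haveILetI false

namespace Fermat.Agent.T3

open AlgebraicCurve ModularCurve Fermat.Agent.Curve HahnSeries Fermat.Agent.T1

local notation "Qb" => AlgebraicClosure ℚ
local notation "GQ" => (AlgebraicClosure ℚ ≃ₐ[ℚ] AlgebraicClosure ℚ)

section Def

variable (N e : ℕ) [NeZero N] [NeZero e]

/-- **the pull-back `J₀(N) → J₀(N e)`** -/
noncomputable def t3pPull : JZero N →+ JZero (N * e) :=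
  t3pPullAlong (heckeAlphaBar Qb N e) (t3h_alphaIntegral N e) (t3h_alphaFundamental N e)

theorem t3pPull_mk (D : Divisor.degZero (K := Qb) (F := ↥(modularFunctionFieldBar N))) :
    t3pPull N e (Pic0.mk D)
      = Pic0.mk ⟨Divisor.pullbackAlong (heckeAlphaBar Qb N e) (t3h_alphaIntegral N e)
          (D : Divisor Qb _),
          Divisor.pullbackAlong_mem_degZero _ _ (t3h_alphaFundamental N e) D.2⟩ :=
  rfl

/-- the inclusion `F_N ⊂ F_{N e}` intertwines the arithmetic Galois actions -/
theorem t3p_intertwines (σ : GQ) :
    SemilinearAut.IntertwinesAlong (heckeAlphaBar Qb N e).toRingHom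
      (arithmeticGalois (modularFunctionFieldFull N) σ)
      (arithmeticGalois (modularFunctionFieldFull (N * e)) σ) := by
  intro y
  apply Subtype.ext
  rw [coe_arithmeticGalois_smul]
  show _ = ((heckeAlphaBar Qb N e (arithmeticGalois (modularFunctionFieldFull N) σ • y) :
    ↥(modularFunctionFieldBar (N * e))) : LaurentSeries Qb)
  rw [coe_heckeAlphaBar, coe_arithmeticGalois_smul]
  show coeffMap _ ((heckeAlphaBar Qb N e y : ↥(modularFunctionFieldBar (N * e))) :
    LaurentSeries Qb) = _
  rw [coe_heckeAlphaBar]

/-- **(P2)** the pull-back is Galois equivariant -/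
theorem t3pPull_galois (σ : GQ) (x : JZero N) : t3pPull N e (σ • x) = σ • t3pPull N e x := by
  rw [galois_smul_pic0_def, galois_smul_pic0_def]
  exact t3pPullAlong_smul _ _ _ (t3p_intertwines N e σ) x

end Def

end Fermat.Agent.T3
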