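/-
T3 (P), part 6 (helper1): **(P4)** the pull-back `J₀(N) → J₀(N e)` is injective on torsion
(in fact: a torsion class which becomes trivial at the level `N e` is trivial), via the level
lowering of roots (K2) of T1-K and the divisibility of the order at the cusp `0`.
-/
import Mathlib
import Fermat.Agent.Lib.T3.Pull.Modular

set_option autoImplicit false
set_option linter.unusedSectionVars false
set_option linter.style.haveILetI false

namespace Fermat.Agent.T3

open AlgebraicCurve ModularCurve Fermat.Agent.Curve HahnSeries Fermat.Agent.T1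

local notation "Qb" => AlgebraicClosure ℚ

section Const

variable {K F : Type*} [Field K] [Field F] [Algebra K F] [CharZero K] [IsAlgClosed K]

/-- a function without zeros and poles is constant -/
theorem t3p_const_of_ord_eq_zero {x : F} (hx : IsFunctionFieldGen K F x) {f : F}
    (hf : ∀ v : Place K F, v.ord f = 0) : ∃ c : K, algebraMap K F c = f := by
  by_contra hfK
  have hfK' : f ∉ Set.range (algebraMap K F) := hfK
  have hfgen : IsFunctionFieldGen K F f := isFunctionFieldGen_of_notMem_range hx hfK'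
  have hp := sum_ord_poles hfgen
  have hempty : {v : Place K F | v.ord f < 0} = ∅ := by
    ext v
    simp only [Set.mem_ofPred_eq, Set.mem_empty_iff_false, iff_false, not_lt]
    rw [hf v]
  rw [hempty, finsum_mem_empty] at hp
  have := hfgen.finite
  have hpos : 0 < Module.finrank (IntermediateField.adjoin K {f}) F := Module.finrank_pos
  omega

end Const

variable (N e : ℕ) [NeZero N] [NeZero e]

/-- **(P4)** a torsion class of `J₀(N)` which dies in `J₀(N e)` is trivial -/
theorem t3pPull_eq_zero_of_torsion {m : ℕ} (hm : m ≠ 0) (x : JZero N) (hx : m • x = 0)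
    (h0 : t3pPull N e x = 0) : x = 0 := by
  obtain ⟨D, rfl⟩ := Pic0.mk_surjective x
  set π := heckeAlphaBar Qb N e with hπdef
  set hπ := t3h_alphaIntegral N e with hhπ
  -- `m D = div f`
  have h1 : Pic0.mk (m • D) = 0 := by rw [← hx]; rfl
  have h1' : ((m • D : Divisor.degZero (K := Qb) (F := ↥(modularFunctionFieldBar N))) :
      Divisor Qb _) ∈ Divisor.principal (K := Qb) (F := ↥(modularFunctionFieldBar N)) :=
    AddSubgroup.mem_addSubgroupOf.mp ((QuotientAddGroup.eq_zero_iff _).mp h1)
  obtain ⟨f, hf0, hf⟩ := h1'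
  have hf' : ∀ v : Place Qb ↥(modularFunctionFieldBar N),
      v.ord f = (m : ℤ) * (D : Divisor Qb _) v := by
    intro v
    rw [← hf v]
    show ((m • (D : Divisor Qb _) : Divisor Qb _)) v = _
    rw [Finsupp.smul_apply, nsmul_eq_mul]
  -- `π^* D = div g`
  rw [t3pPull_mk] at h0
  have h2' : Divisor.pullbackAlong π hπ (D : Divisor Qb _)
      ∈ Divisor.principal (K := Qb) (F := ↥(modularFunctionFieldBar (N * e))) :=
    AddSubgroup.mem_addSubgroupOf.mp ((QuotientAddGroup.eq_zero_iff _).mp h0)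
  obtain ⟨g, hg0, hg⟩ := h2'
  -- `π f / g ^ m` has trivial divisor
  have hord : ∀ w : Place Qb ↥(modularFunctionFieldBar (N * e)),
      w.ord (π f) = (m : ℤ) * w.ord g := by
    intro w
    rw [Place.ord_restrictAlong π hπ, hf', ← hg w, Divisor.pullbackAlong_apply]
    ring
  have hπf0 : π f ≠ 0 := by
    rw [ne_eq, map_eq_zero]; exact hf0
  have hgm0 : g ^ m ≠ 0 := pow_ne_zero m hg0
  have hu : ∀ w : Place Qb ↥(modularFunctionFieldBar (N * e)), w.ord (π f * (g ^ m)⁻¹) = 0 := by
    intro w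
    rw [w.ord_mul hπf0 (inv_ne_zero hgm0), w.ord_inv, ← zpow_natCast, w.ord_zpow, hord w]
    ring
  obtain ⟨c, hc⟩ := t3p_const_of_ord_eq_zero (t3h_gen (N * e)) hu
  have hc0 : c ≠ 0 := by
    rintro rfl
    rw [map_zero] at hc
    exact (mul_ne_zero hπf0 (inv_ne_zero hgm0)) hc.symm
  obtain ⟨c₁, hc₁⟩ := IsAlgClosed.exists_pow_nat_eq c (Nat.pos_of_ne_zero hm)
  -- `g₁ ^ m = π f`
  set g₁ : ↥(modularFunctionFieldBar (N * e)) :=
    algebraMap Qb ↥(modularFunctionFieldBar (N * e)) c₁ * g with hg₁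
  have hg₁m : g₁ ^ m = π f := by
    rw [hg₁, mul_pow, ← map_pow, hc₁, hc, mul_assoc, inv_mul_cancel₀ hgm0, mul_one]
  have hg₁m' : (g₁ : LaurentSeries Qb) ^ m = (f : LaurentSeries Qb) := by
    have := congrArg (fun z : ↥(modularFunctionFieldBar (N * e)) => (z : LaurentSeries Qb)) hg₁m
    simp only [SubmonoidClass.coe_pow] at this
    rw [this, hπdef, coe_heckeAlphaBar]
  -- divisibility at the cusp `0`
  have hfW : Units.mk0 f hf0 ∈ tWsub Qb N m := by
    rw [mem_tWsub]
    intro P
    rw [Units.val_mk0, hf' P]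
    exact Dvd.intro _ rfl
  have hcusp : (m : ℤ) ∣ tkrOrd0 N ⟨(f : LaurentSeries Qb), f.2⟩ :=
    tdd_cusp_dvd N m (Units.mk0 f hf0) hfW ModularGroup.S
  -- level lowering
  have hgN : (g₁ : LaurentSeries Qb) ∈ modularFunctionFieldBar N :=
    tkr_root_descend_mul hm e (NeZero.ne e) N f.2 g₁.2 hg₁m' hcusp
  set h : ↥(modularFunctionFieldBar N) := ⟨(g₁ : LaurentSeries Qb), hgN⟩ with hh
  have hhm : h ^ m = f := by
    apply Subtype.ext
    rw [SubmonoidClass.coe_pow]
    exact hg₁m'
  have hh0 : h ≠ 0 := by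
    rintro h0'
    rw [h0', zero_pow hm] at hhm
    exact hf0 hhm.symm
  -- `D = div h`
  have hDh : ∀ v : Place Qb ↥(modularFunctionFieldBar N), (D : Divisor Qb _) v = v.ord h := by
    intro v
    have h3 := hf' v
    rw [← hhm, ← zpow_natCast, v.ord_zpow] at h3
    have hm' : (m : ℤ) ≠ 0 := by exact_mod_cast hm
    exact (mul_left_cancel₀ hm' h3).symm
  apply (QuotientAddGroup.eq_zero_iff _).mpr
  apply AddSubgroup.mem_addSubgroupOf.mpr
  exact ⟨h, hh0, hDh⟩

/-- **(P4)**, in the form needed for `T3Rho` -/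
theorem t3pPull_injective_torsion {m : ℕ} (hm : m ≠ 0) (x : JZero N) (hx : m • x = 0)
    {G : Type*} [AddCommGroup G] (r : JZero (N * e) →+ G)
    (hr : ∀ y : JZero (N * e), m • y = 0 → r y = 0 → y = 0)
    (h0 : r (t3pPull N e x) = 0) : x = 0 := by
  apply t3pPull_eq_zero_of_torsion N e hm x hx
  apply hr _ _ h0
  rw [← map_nsmul, hx, map_zero]

end Fermat.Agent.T3
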