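/-
T3 (P), part 5 (helper1): **(P3)** the pull-back `J₀(N) → J₀(N e)` commutes with `T_ℓ`
(`ℓ ∤ N e` prime).  Input: (K1) at the levels `N` and `N e`, i.e. the norm of `β y` along `α` is
the functional Hecke operator `tkrHecke` of T1-K (the latter is characterised by `q`-expansions,
hence independent of the level).
-/
import Mathlib
import Fermat.Agent.Lib.T3.Pull.Modular

set_option autoImplicit false
set_option linter.unusedSectionVars false
set_option linter.style.haveILetI false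

namespace Fermat.Agent.T3

open AlgebraicCurve ModularCurve Fermat.Agent.Curve HahnSeries Fermat.Agent.T1

local notation "Qb" => AlgebraicClosure ℚ

/-- **(K1)**, the input from package K: on functions, `N_α ∘ β` is the functional Hecke
operator of T1-K -/
def T3kNorm (M ℓ : ℕ) [NeZero M] [NeZero ℓ] : Prop :=
  ∀ y : ↥(modularFunctionFieldBar M),
    t3pNormAlong (heckeAlphaBar Qb M ℓ) (heckeBetaBar Qb M ℓ y) = tkrHecke M ℓ y

section Incl

variable (N e ℓ : ℕ) [NeZero N] [NeZero e] [NeZero ℓ]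

theorem t3p_bar_le : modularFunctionFieldBar (N * ℓ) ≤ modularFunctionFieldBar (N * e * ℓ) := by
  intro y hy
  have := tkr_bar_mono (N * ℓ) e hy
  rwa [mul_right_comm] at this

/-- the inclusion `F_{N ℓ} ⊂ F_{N e ℓ}` -/
noncomputable def t3pIncl :
    ↥(modularFunctionFieldBar (N * ℓ)) →ₐ[Qb] ↥(modularFunctionFieldBar (N * e * ℓ)) :=
  IntermediateField.inclusion (t3p_bar_le N e ℓ)

@[simp]
theorem coe_t3pIncl (y : ↥(modularFunctionFieldBar (N * ℓ))) :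
    ((t3pIncl N e ℓ y : ↥(modularFunctionFieldBar (N * e * ℓ))) : LaurentSeries Qb)
      = (y : LaurentSeries Qb) :=
  IntermediateField.coe_inclusion _ y

theorem t3pIncl_integral : (t3pIncl N e ℓ).toRingHom.IsIntegral :=
  t3h_isIntegralAlong (t3h_gen (N * ℓ)) (t3h_gen (N * e * ℓ)) (t3pIncl N e ℓ)

theorem t3p_square_alpha :
    (t3pIncl N e ℓ).comp (heckeAlphaBar Qb N ℓ)
      = (heckeAlphaBar Qb (N * e) ℓ).comp (heckeAlphaBar Qb N e) := by
  apply AlgHom.ext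
  intro y
  apply Subtype.ext
  rw [AlgHom.comp_apply, AlgHom.comp_apply, coe_t3pIncl, coe_heckeAlphaBar, coe_heckeAlphaBar,
    coe_heckeAlphaBar]

theorem t3p_square_beta :
    (t3pIncl N e ℓ).comp (heckeBetaBar Qb N ℓ)
      = (heckeBetaBar Qb (N * e) ℓ).comp (heckeAlphaBar Qb N e) := by
  apply AlgHom.ext
  intro y
  apply Subtype.ext
  rw [AlgHom.comp_apply, AlgHom.comp_apply, coe_t3pIncl, coe_heckeBetaBar, coe_heckeBetaBar,
    coe_heckeAlphaBar]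

end Incl

section Main

variable (N e : ℕ) [NeZero N] [NeZero e]

/-- the functional Hecke operator is compatible with the change of level -/
theorem t3p_tkrHecke_level {ℓ : ℕ} (hℓ : ℓ.Prime) (hℓN : ¬ ℓ ∣ N * e)
    (y : ↥(modularFunctionFieldBar N)) :
    heckeAlphaBar Qb N e (tkrHecke N ℓ y) = tkrHecke (N * e) ℓ (heckeAlphaBar Qb N e y) := by
  haveI : NeZero ℓ := ⟨hℓ.ne_zero⟩
  have hℓN' : ¬ ℓ ∣ N := fun h => hℓN (h.mul_right e)
  obtain ⟨ζ, hζ, -⟩ := tkr_exists_zeta ℓ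
  symm
  refine tkrHecke_eq_of_spec hℓ hℓN hζ _ _ ?_
  rw [coe_heckeAlphaBar, coe_heckeAlphaBar]
  exact tkrHecke_spec hℓ hℓN' hζ y

/-- **(P3)** the pull-back commutes with `T_ℓ`, on divisors -/
theorem t3p_pull_heckeDiv {ℓ : ℕ} [NeZero ℓ] (hℓ : ℓ.Prime) (hℓN : ¬ ℓ ∣ N * e)
    (hK : T3kNorm N ℓ) (hK' : T3kNorm (N * e) ℓ)
    (D : Divisor Qb ↥(modularFunctionFieldBar N)) :
    Divisor.pullbackAlong (heckeAlphaBar Qb N e) (t3h_alphaIntegral N e)
        (heckeDivBar (t3h_alphaIntegral N ℓ) (t3h_betaIntegral N ℓ) D)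
      = heckeDivBar (t3h_alphaIntegral (N * e) ℓ) (t3h_betaIntegral (N * e) ℓ)
          (Divisor.pullbackAlong (heckeAlphaBar Qb N e) (t3h_alphaIntegral N e) D) := by
  have hnorm : ∀ f : ↥(modularFunctionFieldBar N), f ≠ 0 →
      heckeAlphaBar Qb N e (t3pNormAlong (heckeAlphaBar Qb N ℓ) (heckeBetaBar Qb N ℓ f))
        = t3pNormAlong (heckeAlphaBar Qb (N * e) ℓ)
            (heckeBetaBar Qb (N * e) ℓ (heckeAlphaBar Qb N e f)) := by
    intro f _
    rw [hK f, hK' (heckeAlphaBar Qb N e f)]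
    exact t3p_tkrHecke_level N e hℓ hℓN f
  have key := t3p_pull_correspondence (K := Qb) (A := ↥(modularFunctionFieldBar N))
    (B := ↥(modularFunctionFieldBar (N * ℓ))) (A' := ↥(modularFunctionFieldBar (N * e)))
    (B' := ↥(modularFunctionFieldBar (N * e * ℓ))) (t3h_gen N)
    (heckeAlphaBar Qb N ℓ) (heckeBetaBar Qb N ℓ)
    (heckeAlphaBar Qb (N * e) ℓ) (heckeBetaBar Qb (N * e) ℓ) (heckeAlphaBar Qb N e)
    (t3pIncl N e ℓ) (t3p_square_alpha N e ℓ) (t3p_square_beta N e ℓ)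
    (t3h_alphaIntegral N ℓ) (t3h_betaIntegral N ℓ) (t3h_alphaIntegral (N * e) ℓ)
    (t3h_betaIntegral (N * e) ℓ) (t3h_alphaIntegral N e) (t3pIncl_integral N e ℓ)
    (t3h_alphaFinite N ℓ) (t3h_alphaNorm N ℓ) (t3h_alphaFinite (N * e) ℓ)
    (t3h_alphaNorm (N * e) ℓ) hnorm D
  exact key

/-- **(P3)** the pull-back `J₀(N) → J₀(N e)` commutes with `T_ℓ` -/
theorem t3pPull_hecke {ℓ : ℕ} (hℓ : ℓ.Prime) (hℓN : ¬ ℓ ∣ N * e)
    (hK : haveI : NeZero ℓ := ⟨hℓ.ne_zero⟩; T3kNorm N ℓ)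
    (hK' : haveI : NeZero ℓ := ⟨hℓ.ne_zero⟩; T3kNorm (N * e) ℓ) (x : JZero N) :
    t3pPull N e (heckeOperatorBar N ⟨ℓ, hℓ⟩ x)
      = heckeOperatorBar (N * e) ⟨ℓ, hℓ⟩ (t3pPull N e x) := by
  haveI : NeZero ℓ := ⟨hℓ.ne_zero⟩
  obtain ⟨D, rfl⟩ := Pic0.mk_surjective x
  have h1 : heckeOperatorBar N ⟨ℓ, hℓ⟩ (Pic0.mk D) = heckeOperatorAlong Qb N ℓ (Pic0.mk D) := rfl
  have h2 : ∀ y : JZero (N * e),
      heckeOperatorBar (N * e) ⟨ℓ, hℓ⟩ y = heckeOperatorAlong Qb (N * e) ℓ y := fun _ => rfl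
  rw [h1, h2]
  rw [t3h_heckeOperatorAlong_mk, t3pPull_mk]
  have h3 := t3pPull_mk N e D
  rw [h3]
  have h4 := t3h_heckeOperatorAlong_mk (N * e) ℓ
    ⟨Divisor.pullbackAlong (heckeAlphaBar Qb N e) (t3h_alphaIntegral N e) (D : Divisor Qb _),
      Divisor.pullbackAlong_mem_degZero _ _ (t3h_alphaFundamental N e) D.2⟩
  rw [h4]
  apply congrArg Pic0.mk
  apply Subtype.ext
  have h5 := t3p_pull_heckeDiv N e hℓ hℓN hK hK' (D : Divisor Qb _)
  dsimp only
  exact h5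

end Main

end Fermat.Agent.T3
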