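/-
T3 (P), part 7 (helper1): the final, hypothesis-free form of (P): the pull-back
`t3pPull N e : J₀(N) → J₀(N e)` is Galois equivariant, commutes with `T_ℓ` for every prime
`ℓ ∤ N e` (using helper7's (K1) `t3k_norm_eq`), and kills no non-trivial torsion class.
-/
import Mathlib
import Fermat.Agent.Lib.T3.Pull.HeckeComm
import Fermat.Agent.Lib.T3.Pull.Torsion
import Fermat.Agent.Lib.T3.Hecke.Emb

set_option autoImplicit false
set_option linter.unusedSectionVars false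
set_option linter.style.haveILetI false

namespace Fermat.Agent.T3

open AlgebraicCurve ModularCurve Fermat.Agent.Curve Fermat.Agent.T1

local notation "Qb" => AlgebraicClosure ℚ
local notation "GQ" => (AlgebraicClosure ℚ ≃ₐ[ℚ] AlgebraicClosure ℚ)

/-- (K1) in the form consumed by (P3) -/
theorem t3p_norm_of_K1 (M ℓ : ℕ) [NeZero M] [NeZero ℓ] (hℓ : ℓ.Prime) (h : ¬ ℓ ∣ M) :
    T3kNorm M ℓ := by
  haveI : Fact ℓ.Prime := ⟨hℓ⟩
  intro y
  exact t3k_norm_eq M ℓ h y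

variable (N e : ℕ) [NeZero N] [NeZero e]

/-- **(P3)** the pull-back `J₀(N) → J₀(N e)` commutes with `T_ℓ`, `ℓ ∤ N e` prime -/
theorem t3pPull_heckeOperatorBar {ℓ : ℕ} (hℓ : ℓ.Prime) (hℓN : ¬ ℓ ∣ N * e) (x : JZero N) :
    t3pPull N e (heckeOperatorBar N ⟨ℓ, hℓ⟩ x)
      = heckeOperatorBar (N * e) ⟨ℓ, hℓ⟩ (t3pPull N e x) := by
  haveI : NeZero ℓ := ⟨hℓ.ne_zero⟩
  have hℓN' : ¬ ℓ ∣ N := fun h => hℓN (h.mul_right e)
  exact t3pPull_hecke N e hℓ hℓN (t3p_norm_of_K1 N ℓ hℓ hℓN') (t3p_norm_of_K1 (N * e) ℓ hℓ hℓN) x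

/-- **(P)**, summary: the three properties of the pull-back needed for `T3Rho` -/
theorem t3pPull_summary :
    (∀ (σ : GQ) (x : JZero N), t3pPull N e (σ • x) = σ • t3pPull N e x) ∧
    (∀ (ℓ : ℕ) (hℓ : ℓ.Prime), ¬ ℓ ∣ N * e → ∀ x : JZero N,
      t3pPull N e (heckeOperatorBar N ⟨ℓ, hℓ⟩ x)
        = heckeOperatorBar (N * e) ⟨ℓ, hℓ⟩ (t3pPull N e x)) ∧
    (∀ m : ℕ, m ≠ 0 → ∀ x : JZero N, m • x = 0 → t3pPull N e x = 0 → x = 0) :=
  ⟨t3pPull_galois N e, fun _ hℓ hℓN x => t3pPull_heckeOperatorBar N e hℓ hℓN x,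
    fun _ hm x hx h0 => t3pPull_eq_zero_of_torsion N e hm x hx h0⟩

end Fermat.Agent.T3
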